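import Mathlib
import Fermat.Prelude.Thm_ModularForm_sturm_bound_Gamma0
import Fermat.Prelude.Thm_CongruenceSubgroup_one_mem_strictPeriods_Gamma0

set_option autoImplicit false
open UpperHalfPlane
open scoped MatrixGroups

namespace Fermat.Agent.S07

/-- The action of `SL(2, ℤ)` on `(ZMod 2)²` through reduction mod 2. -/
@[instance_reducible]
def actZ2 : MulAction SL(2, ℤ) (Fin 2 → ZMod 2) where
  smul A v := (A.1.map (Int.cast : ℤ → ZMod 2)).mulVec v
  one_smul v := by
    show ((1 : SL(2, ℤ)).1.map (Int.cast : ℤ → ZMod 2)).mulVec v = v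
    simp
  mul_smul A B v := by
    show ((A * B).1.map (Int.cast : ℤ → ZMod 2)).mulVec v =
      (A.1.map (Int.cast : ℤ → ZMod 2)).mulVec ((B.1.map (Int.cast : ℤ → ZMod 2)).mulVec v)
    rw [Matrix.mulVec_mulVec]
    congr 1
    have := Matrix.map_mul (L := A.1) (M := B.1) (f := Int.castRingHom (ZMod 2))
    simpa using this

theorem stabilizer_le_Gamma0_two :
    @MulAction.stabilizer SL(2, ℤ) (Fin 2 → ZMod 2) _ actZ2 ![1, 0] ≤
      CongruenceSubgroup.Gamma0 2 := by
  intro A hA
  let _ := actZ2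
  rw [MulAction.mem_stabilizer_iff] at hA
  have h1 : (A.1.map (Int.cast : ℤ → ZMod 2)).mulVec ![1, 0] = ![1, 0] := hA
  have h2 := congrFun h1 1
  rw [CongruenceSubgroup.Gamma0_mem]
  simpa [Matrix.mulVec, dotProduct, Fin.sum_univ_two] using h2

theorem index_Gamma0_two_le : (CongruenceSubgroup.Gamma0 2).index ≤ 4 := by
  let _ := actZ2
  have h1 : (MulAction.stabilizer SL(2, ℤ) (![1, 0] : Fin 2 → ZMod 2)).index ≤ 4 := by
    rw [MulAction.index_stabilizer]
    calc (MulAction.orbit SL(2, ℤ) (![1, 0] : Fin 2 → ZMod 2)).ncard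
        ≤ Nat.card (Fin 2 → ZMod 2) := Set.ncard_le_card _
      _ = 4 := by
        rw [Nat.card_eq_fintype_card]
        simp [ZMod.card]
  have h0 : (MulAction.stabilizer SL(2, ℤ) (![1, 0] : Fin 2 → ZMod 2)).index ≠ 0 := by
    rw [MulAction.index_stabilizer]
    have : (MulAction.orbit SL(2, ℤ) (![1, 0] : Fin 2 → ZMod 2)).Nonempty :=
      MulAction.nonempty_orbit _
    exact ((Set.ncard_pos (Set.toFinite _)).mpr this).ne'
  have h2 := Subgroup.index_dvd_of_le stabilizer_le_Gamma0_two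
  exact (Nat.le_of_dvd (Nat.pos_of_ne_zero h0) h2).trans h1

end Fermat.Agent.S07
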